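/-
S25, unit U4b: functions on the curve over a base are constant, hence determined along the section.
-/
import Fermat.Agent.Jac.Dictionary.Near
import Fermat.Agent.Jac.Lat

set_option autoImplicit false

noncomputable section

universe u

open CategoryTheory CategoryTheory.Limits AlgebraicGeometry NeronModelInfra AlgebraicGeometry.RelPicard

namespace Fermat.Agent.Jac

section BaseChange

variable {R : Type u} [CommRing R] {C T T' : Scheme.{u}} (c : C ⟶ Spec (CommRingCat.of R))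
  {t : T ⟶ Spec (CommRingCat.of R)} {t' : T' ⟶ Spec (CommRingCat.of R)} (s : SchemeHomOver t' t)

instance isOpenImmersion_baseChangeSnd [IsOpenImmersion s.1] : IsOpenImmersion (baseChangeSnd c s) := by
  unfold baseChangeSnd
  infer_instance

theorem opensRange_baseChangeSnd [IsOpenImmersion s.1] :
    (baseChangeSnd c s).opensRange = pullback.snd c t ⁻¹ᵁ s.1.opensRange := by
  refine TopologicalSpace.Opens.ext ?_
  change Set.range (pullback.map c t' c t (𝟙 C) s.1 (𝟙 _)
    ((Category.comp_id c).trans (Category.id_comp c).symm) ((Category.comp_id t').trans s.2.symm)) = _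
  rw [Scheme.Pullback.range_map]
  simp

theorem rigSection_preimage_le (ε : SchemeHomOver (𝟙 (Spec (CommRingCat.of R))) c) (U : T.Opens) :
    rigSection c t ε ⁻¹ᵁ (pullback.snd c t ⁻¹ᵁ U) = U := by
  rw [← Scheme.Hom.comp_preimage, rigSection, pullback.lift_snd]
  rfl

end BaseChange

namespace CurveModel

variable {k : Type u} [Field k] {C : Scheme.{u}} {c : C ⟶ Spec (CommRingCat.of k)}
  {ε : SchemeHomOver (𝟙 (Spec (CommRingCat.of k))) c}
variable (M : CurveModel c ε) {B : Type u} [CommRing B] [Algebra k B]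

/-- A global function equal to one along the section is one. -/
theorem eq_one_of_affine (a : Γ(M.XB B, ⊤))
    (h : Shf.evalAt (rigSection c (specBase k B) ε) ⊤ rfl a = 1) : a = 1 := by
  set r₀ := (M.coord₀ B).symm (Shf.resO le_top a) with hr₀
  set r₁ := (M.coord₁ B).symm (Shf.resO le_top a) with hr₁
  have hθ : M.θ B ⁻¹ᵁ (⊤ : (M.XB B).Opens) = ⊤ := rfl
  have e1 : M.emb₁B B r₁ = Shf.evalAt (M.θ B) ⊤ hθ a := by
    rw [← M.evalAt_coord₁ B (M.preimage_θ_V₁ B), hr₁, RingEquiv.apply_symm_apply, Shf.evalAt_res]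
  have e0 : M.D.embB B r₀ = HahnSeries.ofPowerSeries ℤ B (M.emb₁B B r₁) := by
    rw [e1, ← M.evalAt_θ' B hθ, ← M.evalAt_coord₀ B (M.preimage_θ'_V₀ B), hr₀,
      RingEquiv.apply_symm_apply, Shf.evalAt_res]
  obtain ⟨b, hb⟩ := M.D.exists_const_of_mem_reg (x := M.D.embB B r₀) ⟨r₀, rfl⟩ fun i hi => by
    rw [e0, PowerSeries.coeff_coe, if_pos hi]
  have hσ : Shf.evalAt (rigSection c (specBase k B) ε) ⊤ rfl a =
      PowerSeries.constantCoeff (Shf.evalAt (M.θ B) ⊤ hθ a) := by
    rw [Shf.evalAt_congr (M.rigSection_eq B) rfl rfl]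
    exact Shf.evalAt_comp (M.θ B) _ hθ rfl a
  have hb' : M.emb₁B B r₁ = PowerSeries.C b :=
    HahnSeries.ofPowerSeries_injective (Γ := ℤ)
      (e0.symm.trans (hb.trans (HahnSeries.ofPowerSeries_C b).symm))
  have hb1 : b = 1 := by
    rw [h, ← e1, hb', PowerSeries.constantCoeff_C] at hσ
    exact hσ.symm
  have h₀ : r₀ = 1 := M.D.embB_injective (by rw [hb, hb1, map_one, map_one])
  have hv₀ : Shf.resO (le_top : M.V₀ B ≤ ⊤) a = 1 := by
    rw [← (M.coord₀ B).apply_symm_apply (Shf.resO le_top a), ← hr₀, h₀, map_one]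
  have hv₁ : Shf.resO (le_top : M.V₁ B ≤ ⊤) a = 1 := by
    have hle : (M.XB B).basicOpen (M.coord₁ B (M.hB B)) ≤ M.V₁ B := (M.XB B).basicOpen_le _
    letI := (Shf.resO hle).toAlgebra
    haveI : IsLocalization.Away (M.coord₁ B (M.hB B))
        Γ(M.XB B, (M.XB B).basicOpen (M.coord₁ B (M.hB B))) :=
      (Shf.isAffineOpen_chart (M.q₁ B)).isLocalization_basicOpen _
    have hz : algebraMap Γ(M.XB B, M.V₁ B) Γ(M.XB B, (M.XB B).basicOpen (M.coord₁ B (M.hB B)))
        (M.coord₁ B (r₁ - 1)) = 0 := by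
      change Shf.resO hle _ = 0
      rw [map_sub, map_sub, map_one, map_one, hr₁, RingEquiv.apply_symm_apply, Shf.resO_resO,
        sub_eq_zero]
      have h2 := congrArg (Shf.resO ((M.V₀_inf_V₁ B).ge.trans inf_le_left)) hv₀
      rw [Shf.resO_resO, map_one] at h2
      exact h2
    obtain ⟨⟨_, N, rfl⟩, hN⟩ := (IsLocalization.map_eq_zero_iff
      (Submonoid.powers (M.coord₁ B (M.hB B))) _ _).mp hz
    have hN' : M.hB B ^ N * (r₁ - 1) = 0 := (M.coord₁ B).injective (by simpa using hN)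
    have h1 : r₁ = 1 := sub_eq_zero.mp (((M.hB_regular B).pow N).left (by simpa using hN'))
    rw [← (M.coord₁ B).apply_symm_apply (Shf.resO le_top a), ← hr₁, h1, map_one]
  refine Shf.ext_functions (fun i : Bool => bif i then M.V₀ B else M.V₁ B) (fun _ => le_top)
    (fun x _ => (M.covers_B B x).elim (fun hx => ⟨true, hx⟩) fun hx => ⟨false, hx⟩) fun i => ?_
  cases i
  · exact hv₁.trans (map_one _).symm
  · exact hv₀.trans (map_one _).symm

include M in
/-- A function equal to one along the section is one. -/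
theorem eq_one_of_section {T : Scheme.{u}} (t : T ⟶ Spec (CommRingCat.of k)) (U : T.Opens)
    (a : Γ(pullback c t, pullback.snd c t ⁻¹ᵁ U))
    (h : (rigSection c t ε).appLE (pullback.snd c t ⁻¹ᵁ U) U
      (rigSection_preimage_le c ε U).ge a = 1) :
    a = 1 := by
  refine Shf.ext_functions
    (fun W : {W : T.Opens // IsAffineOpen W ∧ W ≤ U} => pullback.snd c t ⁻¹ᵁ W.1)
    (fun W => (pullback.snd c t).preimage_mono W.2.2) (fun p hp => ?_) fun ⟨W, hW, hWU⟩ => ?_
  · obtain ⟨W, hW, hxW, hWU⟩ := exists_isAffineOpen_mem_and_subset (U := U) hp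
    exact ⟨⟨W, hW, hWU⟩, hxW⟩
  let φ := Spec.preimage (hW.fromSpec ≫ t)
  letI : Algebra k Γ(T, W) := φ.hom.toAlgebra
  let s : SchemeHomOver (specBase k Γ(T, W)) t := ⟨hW.fromSpec, (Spec.map_preimage _).symm⟩
  haveI : IsOpenImmersion s.1 := inferInstanceAs (IsOpenImmersion hW.fromSpec)
  let F := baseChangeSnd c s
  have hrange : F.opensRange = pullback.snd c t ⁻¹ᵁ W := by
    rw [opensRange_baseChangeSnd, show s.1.opensRange = W from hW.opensRange_fromSpec]
  have hFU : F ⁻¹ᵁ (pullback.snd c t ⁻¹ᵁ U) = ⊤ := by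
    refine top_le_iff.mp fun x _ => ?_
    exact (pullback.snd c t).preimage_mono hWU (hrange.le ⟨x, rfl⟩)
  have h1 := M.eq_one_of_affine (B := Γ(T, W)) (Shf.resO hFU.ge (F.app _ a)) (by
    have hsU : hW.fromSpec ⁻¹ᵁ U = ⊤ := by
      exact top_le_iff.mp fun x _ => hWU (hW.opensRange_fromSpec.le ⟨x, rfl⟩)
    have h2 : (rigSection c (specBase k Γ(T, W)) ε ≫ F) ⁻¹ᵁ (pullback.snd c t ⁻¹ᵁ U) = ⊤ := by
      rw [Scheme.Hom.comp_preimage, hFU]
      rfl
    have heq := rigSection_preimage_le (t := t) c ε U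
    have h3 : hW.fromSpec ⁻¹ᵁ (rigSection c t ε ⁻¹ᵁ (pullback.snd c t ⁻¹ᵁ U)) = ⊤ := by
      rw [heq, hsU]
    have h4 : (s.1 ≫ rigSection c t ε) ⁻¹ᵁ (pullback.snd c t ⁻¹ᵁ U) = ⊤ := h3
    rw [Shf.evalAt_res, ← Shf.evalAt_app _ F h2, Shf.evalAt_congr (rigSection_baseChangeSnd c ε s) h2 h4,
      Shf.evalAt_app hW.fromSpec (rigSection c t ε) h3]
    have h5 := congrArg (Shf.resO heq.le) h
    rw [map_one] at h5
    rw [show (rigSection c t ε).app _ a = 1 from ?_, map_one]
    rw [← h5]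
    change _ = ((rigSection c t ε).appLE _ U _ ≫ T.presheaf.map _).hom a
    rw [Scheme.Hom.appLE_map, Scheme.Hom.app_eq_appLE])
  have hinj : Function.Injective (F.app (pullback.snd c t ⁻¹ᵁ W)) :=
    haveI := F.isIso_app (pullback.snd c t ⁻¹ᵁ W) hrange.ge
    (ConcreteCategory.bijective_of_isIso _).1
  apply hinj
  have hle : F ⁻¹ᵁ (pullback.snd c t ⁻¹ᵁ W) ≤ ⊤ := le_top
  have h6 := congrArg (Shf.resO hle) h1
  rw [Shf.resO_resO, map_one] at h6
  rw [map_one, map_one, ← h6]
  exact congr(($(F.naturality (homOfLE ((pullback.snd c t).preimage_mono hWU)).op)).hom a)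

end CurveModel

end Fermat.Agent.Jac
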