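/-
S25, unit U4b: morphisms of modules over an open subset, sections along open immersions.
-/
import Fermat.Agent.Jac.Sheaf.Glue

set_option autoImplicit false

noncomputable section

universe u

open CategoryTheory CategoryTheory.Limits AlgebraicGeometry TopologicalSpace Opposite

namespace Fermat.Agent.Jac.Shf

variable {X Y Z : Scheme.{u}}

theorem bijective_resM (M : X.Modules) {U V : X.Opens} (h : V ≤ U) (h' : U ≤ V) :
    Function.Bijective (resM M h) := by
  obtain rfl := le_antisymm h h'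
  rw [show (resM M h : Γ(M, V) → Γ(M, V)) = id from funext fun x => resM_self M h x]
  exact Function.bijective_id

theorem bijective_pb (j : Y ⟶ X) [IsOpenImmersion j] (M : X.Modules) {W : X.Opens}
    (hW : W ≤ j.opensRange) : Function.Bijective (pb j M W) := by
  let η := Scheme.Modules.restrictFunctorIsoPullback j
  have h := (Scheme.Modules.restrictAdjunction j).unit_leftAdjointUniq_hom_app
    (Scheme.Modules.pullbackPushforwardAdjunction j) M
  have h2 : ∀ x, pb j M W x = (η.hom.app M).app _ (resM M (j.image_preimage_le W) x) :=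
    fun x => (congr(($h).app W x)).symm
  have hge : W ≤ j ''ᵁ (j ⁻¹ᵁ W) := by
    rw [Scheme.Hom.image_preimage_eq_opensRange_inf]
    exact le_inf hW le_rfl
  rw [show (pb j M W : _ → _) =
    ((η.app M).hom.app (j ⁻¹ᵁ W)) ∘ resM M (j.image_preimage_le W) from funext h2]
  exact (ConcreteCategory.bijective_of_isIso ((η.app M).hom.app (j ⁻¹ᵁ W))).comp
    (bijective_resM M _ hge)

theorem resO_app_congr {f g : Y ⟶ X} (h : f = g) {W : X.Opens} (h' : g ⁻¹ᵁ W ≤ f ⁻¹ᵁ W)
    (r : Γ(X, W)) : resO h' (f.app W r) = g.app W r := by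
  subst h
  exact resO_self _ _

/-- Pullback of sections along an open immersion, on an open subset of the image. -/
def pbEquiv (j : Y ⟶ X) [IsOpenImmersion j] (M : X.Modules) {W : X.Opens} (hW : W ≤ j.opensRange) :
    Γ(M, W) ≃+ Γ((Scheme.Modules.pullback j).obj M, j ⁻¹ᵁ W) :=
  AddEquiv.ofBijective (pb j M W) (bijective_pb j M hW)

section Pushforward

variable (F : Y ⟶ X) (N : Y.Modules)

theorem smul_pushforward {W : X.Opens} (r : Γ(X, W)) (x : Γ(N, F ⁻¹ᵁ W)) :
    letI x' : Γ((Scheme.Modules.pushforward F).obj N, W) := x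
    r • x' = (F.app W r • x : Γ(N, F ⁻¹ᵁ W)) := rfl

theorem resM_pushforward {W W' : X.Opens} (h : W' ≤ W) (x : Γ(N, F ⁻¹ᵁ W)) :
    resM ((Scheme.Modules.pushforward F).obj N) h x = resM N (F.preimage_mono h) x := rfl

theorem isFrame_pushforward_iff [IsOpenImmersion F] {W : X.Opens} (hW : W ≤ F.opensRange)
    (e : Γ(N, F ⁻¹ᵁ W)) :
    IsFrame ((Scheme.Modules.pushforward F).obj N) (U := W) e ↔ IsFrame N e := by
  have key : ∀ (V : X.Opens) (h : V ≤ W),
      Function.Bijective
        (fun r : Γ(X, V) => r • resM ((Scheme.Modules.pushforward F).obj N) (V := V) h e) ↔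
      Function.Bijective (fun r : Γ(Y, F ⁻¹ᵁ V) => r • resM N (F.preimage_mono h) e) := by
    intro V h
    haveI := F.isIso_app V (h.trans hW)
    exact Function.Bijective.of_comp_iff
      (fun r : Γ(Y, F ⁻¹ᵁ V) => r • resM N (F.preimage_mono h) e)
      (ConcreteCategory.bijective_of_isIso (F.app V))
  constructor
  · intro H V h
    have hV : F ⁻¹ᵁ (F ''ᵁ V) = V := F.preimage_image_eq V
    have h' : F ''ᵁ V ≤ W := (Scheme.Hom.image_mono F h).trans (F.image_preimage_le W)
    have H' := (key _ h').mp (H _ h')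
    revert H'
    generalize Scheme.Hom.preimage_mono F h' = h''
    revert h''
    rw [hV]
    exact fun _ H' => H'
  · intro H V h
    exact (key V h).mpr (H _ _)

end Pushforward

/-- A morphism of modules over an open subset. -/
structure LocHom (L L' : X.Modules) (V : X.Opens) where
  app : ∀ W : X.Opens, W ≤ V → Γ(L, W) →+ Γ(L', W)
  smul : ∀ (W : X.Opens) (h : W ≤ V) (r : Γ(X, W)) (x : Γ(L, W)), app W h (r • x) = r • app W h x
  res : ∀ (W W' : X.Opens) (h : W ≤ V) (h' : W' ≤ W) (x : Γ(L, W)),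
    resM L' h' (app W h x) = app W' (h'.trans h) (resM L h' x)

namespace LocHom

variable {L L' L'' : X.Modules} {V : X.Opens}

/-- Frames go to frames. -/
def Frames (φ : LocHom L L' V) : Prop :=
  ∀ (W : X.Opens) (h : W ≤ V) (e : Γ(L, W)), IsFrame L e → IsFrame L' (φ.app W h e)

/-- A morphism of modules. -/
def ofHom (φ : L ⟶ L') (V : X.Opens) : LocHom L L' V where
  app W _ := (φ.app W).hom
  smul _ _ r x := Scheme.Modules.Hom.app_smul φ r x
  res _ _ _ h' x := (app_resM φ h' x).symm

/-- The identity. -/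
def id (L : X.Modules) (V : X.Opens) : LocHom L L V := ofHom (𝟙 L) V

theorem frames_id : (LocHom.id L V).Frames := fun _ _ _ he => he

/-- Restriction to a smaller open subset. -/
def restrict (φ : LocHom L L' V) {V' : X.Opens} (hV : V' ≤ V) : LocHom L L' V' where
  app W h := φ.app W (h.trans hV)
  smul W h := φ.smul W (h.trans hV)
  res W W' h := φ.res W W' (h.trans hV)

theorem Frames.restrict {φ : LocHom L L' V} (hφ : φ.Frames) {V' : X.Opens} (hV : V' ≤ V) :
    (φ.restrict hV).Frames := fun W h => hφ W (h.trans hV)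

/-- Composition. -/
def comp (φ : LocHom L L' V) (ψ : LocHom L' L'' V) : LocHom L L'' V where
  app W h := (ψ.app W h).comp (φ.app W h)
  smul W h r x := by simp [φ.smul, ψ.smul]
  res W W' h h' x := by simp [φ.res, ψ.res]

theorem Frames.comp {φ : LocHom L L' V} {ψ : LocHom L' L'' V} (hφ : φ.Frames) (hψ : ψ.Frames) :
    (φ.comp ψ).Frames := fun W h e he => hψ W h _ (hφ W h e he)

/-- Multiplication by a function. -/
def scale (φ : LocHom L L' V) (a : Γ(X, V)) : LocHom L L' V where
  app W h := AddMonoidHom.mk' (fun x => resO h a • φ.app W h x) fun x y => by rw [map_add, smul_add]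
  smul W h r x := by
    change resO h a • φ.app W h (r • x) = r • resO h a • φ.app W h x
    rw [φ.smul, smul_comm]
  res W W' h h' x := by
    change resM L' h' (resO h a • φ.app W h x) = resO (h'.trans h) a • φ.app W' _ (resM L h' x)
    rw [resM_smul, resO_resO, φ.res]

theorem Frames.scale {φ : LocHom L L' V} (hφ : φ.Frames) {a : Γ(X, V)} (ha : IsUnit a) :
    (φ.scale a).Frames := fun W h e he => (hφ W h e he).smul_unit (ha.map (resO h))

end LocHom

/-- An isomorphism after pullback along open immersions, as a morphism over the common image. -/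
theorem exists_locHom {X₁ X₂ : Scheme.{u}} (G : Z ⟶ X₁) (G' : Z ⟶ X₂) (F : X₁ ⟶ X) (F' : X₂ ⟶ X)
    [IsOpenImmersion G] [IsOpenImmersion G'] [IsOpenImmersion F] [IsOpenImmersion F']
    (hGF : G ≫ F = G' ≫ F') (L : X₁.Modules) (L' : X₂.Modules)
    (φ : (Scheme.Modules.pullback G).obj L ≅ (Scheme.Modules.pullback G').obj L') {V : X.Opens}
    (hV : V ≤ (G ≫ F).opensRange) :
    ∃ Φ : LocHom ((Scheme.Modules.pushforward F).obj L) ((Scheme.Modules.pushforward F').obj L') V,
      Φ.Frames := by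
  have hG : ∀ W, W ≤ V → F ⁻¹ᵁ W ≤ G.opensRange := fun W hW x hx => by
    obtain ⟨z, hz⟩ := hV (hW hx)
    exact ⟨z, F.isOpenEmbedding.injective hz⟩
  have hG' : ∀ W, W ≤ V → F' ⁻¹ᵁ W ≤ G'.opensRange := fun W hW x hx => by
    obtain ⟨z, hz⟩ := hV (hW hx)
    rw [hGF] at hz
    exact ⟨z, F'.isOpenEmbedding.injective hz⟩
  have hV' : V ≤ F'.opensRange := fun x hx => by
    obtain ⟨z, hz⟩ := hV hx
    rw [hGF] at hz
    exact ⟨G' z, hz⟩
  have heq : ∀ W : X.Opens, G' ⁻¹ᵁ (F' ⁻¹ᵁ W) = G ⁻¹ᵁ (F ⁻¹ᵁ W) := fun W => by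
    rw [← Scheme.Hom.comp_preimage, ← Scheme.Hom.comp_preimage, hGF]
  let M' := (Scheme.Modules.pullback G').obj L'
  let A : ∀ W, W ≤ V →
      Γ((Scheme.Modules.pushforward F).obj L, W) →+ Γ((Scheme.Modules.pushforward F').obj L', W) :=
    fun W hW => (pbEquiv G' L' (hG' W hW)).symm.toAddMonoidHom.comp
      ((resM M' (heq W).le).comp ((φ.hom.app (G ⁻¹ᵁ (F ⁻¹ᵁ W))).hom.comp (pb G L (F ⁻¹ᵁ W))))
  have hA : ∀ W hW (x : Γ(L, F ⁻¹ᵁ W)),
      pb G' L' (F' ⁻¹ᵁ W) (A W hW x) = resM M' (heq W).le (φ.hom.app _ (pb G L (F ⁻¹ᵁ W) x)) :=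
    fun W hW x => (pbEquiv G' L' (hG' W hW)).apply_symm_apply _
  refine ⟨⟨A, fun W h r x => ?_, fun W W' h h' x => ?_⟩, fun W h e he => ?_⟩
  · apply (bijective_pb G' L' (hG' W h)).1
    erw [hA W h]
    let x' : Γ(L, F ⁻¹ᵁ W) := x
    let y' : Γ(L', F' ⁻¹ᵁ W) := A W h x
    let r' : Γ(X₁, F ⁻¹ᵁ W) := F.app W r
    let r'' : Γ(X₂, F' ⁻¹ᵁ W) := F'.app W r
    change resM M' _ (φ.hom.app _ (pb G L _ (r' • x'))) = pb G' L' _ (r'' • y')
    rw [pb_smul, Scheme.Modules.Hom.app_smul, resM_smul, pb_smul, hA W h]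
    congr 1
    exact resO_app_congr hGF _ r
  · apply (bijective_pb G' L' (hG' W' (h'.trans h))).1
    erw [hA W' (h'.trans h)]
    rw [resM_pushforward, ← resM_pb, hA W h, resM_resM]
    erw [← resM_pb G L (F.preimage_mono h') x]
    rw [app_resM, resM_resM]
  · refine (isFrame_pushforward_iff F' L' (h.trans hV') _).mpr ?_
    have hWF : W ≤ F.opensRange := fun x hx => by
      obtain ⟨z, hz⟩ := hV (h hx)
      exact ⟨G z, hz⟩
    have h1 := ((((isFrame_pushforward_iff F L hWF _).mp he).pb G).map φ).res (heq W).le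
    rw [← hA W h] at h1
    intro U hU
    have hU' : G' ''ᵁ (G' ⁻¹ᵁ U) = U := by
      rw [Scheme.Hom.image_preimage_eq_opensRange_inf, inf_eq_right]
      exact hU.trans (hG' W h)
    have key := h1 _ (G'.preimage_mono hU)
    rw [resM_pb G' L' hU] at key
    haveI := G'.isIso_app U (hU.trans (hG' W h))
    have hc : (fun r => r • pb G' L' U (resM L' hU (A W h e))) ∘ (G'.app U) =
        pb G' L' U ∘ (fun r => r • resM L' hU (A W h e)) := funext fun r => (pb_smul G' L' r _).symm
    have h2 := key.comp (ConcreteCategory.bijective_of_isIso (G'.app U))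
    change Function.Bijective ((fun r => r • pb G' L' U (resM L' hU (A W h e))) ∘ (G'.app U)) at h2
    rw [hc] at h2
    exact (Function.Bijective.of_comp_iff' (bijective_pb G' L' (hU.trans (hG' W h))) _).mp h2

end Fermat.Agent.Jac.Shf
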