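/-
S25, unit U4b: rigidifications along a section, and the rigid morphisms between rigidified modules.
-/
import Fermat.Agent.Jac.Global.LocHom

set_option autoImplicit false

noncomputable section

universe u

open CategoryTheory CategoryTheory.Limits AlgebraicGeometry TopologicalSpace Opposite

namespace Fermat.Agent.Jac.Shf

variable {X T : Scheme.{u}}

theorem resO_app (σ : T ⟶ X) {W W' : X.Opens} (h : W' ≤ W) (r : Γ(X, W)) :
    resO (σ.preimage_mono h) (σ.app W r) = σ.app W' (resO h r) :=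
  congr(($((σ.naturality (homOfLE h).op).symm)).hom r)

theorem isUnit_of_isFrame_unit {U : X.Opens}
    {e : Γ(X, U)}
    (he : IsFrame (SheafOfModules.unit X.ringCatSheaf : X.Modules) (U := U) e) :
    IsUnit e := by
  obtain ⟨r, hr⟩ := (he U le_rfl).2
    ((1 : Γ(X, U)) : Γ((SheafOfModules.unit X.ringCatSheaf : X.Modules), U))
  refine IsUnit.of_mul_eq_one (r : Γ(X, U)) ?_
  have h' : (r : Γ(X, U)) * resO le_rfl e = (1 : Γ(X, U)) := hr
  rw [resO_self] at h'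
  rw [mul_comm]
  exact h'

/-- A rigidification along a section, over an open subset of the base. -/
structure Rig (σ : T ⟶ X) (pr : X ⟶ T) (L : X.Modules) (U : T.Opens) where
  val : ∀ W : X.Opens, W ≤ pr ⁻¹ᵁ U → Γ(L, W) →+ Γ(T, σ ⁻¹ᵁ W)
  smul : ∀ (W : X.Opens) (h : W ≤ pr ⁻¹ᵁ U) (r : Γ(X, W)) (x : Γ(L, W)),
    val W h (r • x) = σ.app W r * val W h x
  res : ∀ (W W' : X.Opens) (h : W ≤ pr ⁻¹ᵁ U) (h' : W' ≤ W) (x : Γ(L, W)),
    resO (σ.preimage_mono h') (val W h x) = val W' (h'.trans h) (resM L h' x)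
  isUnit : ∀ (W : X.Opens) (h : W ≤ pr ⁻¹ᵁ U) (e : Γ(L, W)), IsFrame L e → IsUnit (val W h e)
  exists_frame : ∀ p ∈ pr ⁻¹ᵁ U, ∃ W : X.Opens, p ∈ W ∧ W ≤ pr ⁻¹ᵁ U ∧ ∃ e : Γ(L, W), IsFrame L e

namespace Rig

variable {σ : T ⟶ X} {pr : X ⟶ T} {L L' L'' : X.Modules} {U : T.Opens}

/-- Restriction to a smaller open subset of the base. -/
def restrict (R : Rig σ pr L U) {U' : T.Opens} (hU : U' ≤ U) : Rig σ pr L U' where
  val W h := R.val W (h.trans (pr.preimage_mono hU))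
  smul W h := R.smul W _
  res W W' h := R.res W W' _
  isUnit W h := R.isUnit W _
  exists_frame p hp := by
    obtain ⟨W, hpW, -, e, he⟩ := R.exists_frame p (pr.preimage_mono hU hp)
    exact ⟨W ⊓ pr ⁻¹ᵁ U', ⟨hpW, hp⟩, inf_le_right, _, he.res inf_le_left⟩

/-- The rigidification transported along a morphism preserving frames. -/
def comap (R' : Rig σ pr L' U) (φ : LocHom L L' (pr ⁻¹ᵁ U)) (hφ : φ.Frames)
    (R : Rig σ pr L U) : Rig σ pr L U where
  val W h := (R'.val W h).comp (φ.app W h)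
  smul W h r x := by
    change R'.val W h (φ.app W h (r • x)) = σ.app W r * R'.val W h (φ.app W h x)
    rw [φ.smul, R'.smul]
  res W W' h h' x := by
    change resO _ (R'.val W h (φ.app W h x)) = R'.val W' _ (φ.app W' _ (resM L h' x))
    rw [R'.res W W' h h', φ.res]
  isUnit W h e he := R'.isUnit W h _ (hφ W h e he)
  exists_frame := R.exists_frame

theorem preimage_section_le (hσ : σ ≫ pr = 𝟙 T) {W : X.Opens} (h : W ≤ pr ⁻¹ᵁ U) : σ ⁻¹ᵁ W ≤ U := by
  refine (σ.preimage_mono h).trans ?_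
  rw [← Scheme.Hom.comp_preimage, hσ]
  rfl

theorem mem_preimage_section (hσ : σ ≫ pr = 𝟙 T) {y : T} (hy : y ∈ U) : σ y ∈ pr ⁻¹ᵁ U := by
  change pr (σ y) ∈ U
  rw [← Scheme.Hom.comp_apply, hσ]
  exact hy

/-- Two rigidifications differ by a function on the base. -/
theorem exists_ratio (hσ : σ ≫ pr = 𝟙 T) (R S : Rig σ pr L U) :
    ∃ w : Γ(T, U), ∀ (W : X.Opens) (h : W ≤ pr ⁻¹ᵁ U) (x : Γ(L, W)),
      S.val W h x = resO (preimage_section_le hσ h) w * R.val W h x := by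
  choose W hpW hW e he using fun p : (pr ⁻¹ᵁ U : X.Opens) => R.exists_frame p p.2
  let wp : ∀ p, Γ(T, σ ⁻¹ᵁ W p) := fun p =>
    S.val (W p) (hW p) (e p) * ↑((R.isUnit (W p) (hW p) (e p) (he p)).unit⁻¹)
  have key : ∀ p (W' : X.Opens) (hp : W' ≤ W p) (x : Γ(L, W')),
      S.val W' (hp.trans (hW p)) x =
        resO (σ.preimage_mono hp) (wp p) * R.val W' (hp.trans (hW p)) x := by
    intro p W' hp x
    rw [← (he p).coeff_spec hp x, S.smul, R.smul, ← S.res _ _ (hW p) hp, ← R.res _ _ (hW p) hp]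
    have h1 : wp p * R.val (W p) (hW p) (e p) = S.val (W p) (hW p) (e p) := by
      simp only [wp, mul_assoc, IsUnit.val_inv_mul, mul_one]
    have h2 := congrArg (resO (σ.preimage_mono hp)) h1
    rw [map_mul] at h2
    rw [← h2]
    ring
  obtain ⟨w, hw⟩ := exists_glue_functions (fun p => σ ⁻¹ᵁ W p)
    (fun p => preimage_section_le hσ (hW p))
    (fun y hy => ⟨⟨σ y, mem_preimage_section hσ hy⟩, hpW _⟩) wp (fun p q => by
      have hp : W p ⊓ W q ≤ W p := inf_le_left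
      have h1 := key p (W p ⊓ W q) hp (resM L hp (e p))
      have h2 := key q (W p ⊓ W q) inf_le_right (resM L hp (e p))
      exact (R.isUnit _ _ _ ((he p).res hp)).mul_right_cancel (h1.symm.trans h2))
  refine ⟨w, fun W' h x => ext_functions
    (fun p => σ ⁻¹ᵁ (W' ⊓ W p)) (fun p => σ.preimage_mono inf_le_left)
    (fun y hy => ⟨⟨σ y, h hy⟩, hy, hpW _⟩) fun p => ?_⟩
  rw [S.res W' _ h inf_le_left, map_mul, R.res W' _ h inf_le_left, resO_resO, key p _ inf_le_right]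
  congr 1
  rw [← hw p, resO_resO]

/-- A morphism compatible with the rigidifications. -/
def Normalised (R : Rig σ pr L U) (R' : Rig σ pr L' U) (φ : LocHom L L' (pr ⁻¹ᵁ U)) : Prop :=
  ∀ (W : X.Opens) (h : W ≤ pr ⁻¹ᵁ U) (x : Γ(L, W)), R'.val W h (φ.app W h x) = R.val W h x

theorem normalised_id (R : Rig σ pr L U) : Normalised R R (LocHom.id L _) := fun _ _ _ => rfl

theorem Normalised.comp {R : Rig σ pr L U} {R' : Rig σ pr L' U} {R'' : Rig σ pr L'' U}
    {φ : LocHom L L' (pr ⁻¹ᵁ U)} {ψ : LocHom L' L'' (pr ⁻¹ᵁ U)} (hφ : Normalised R R' φ)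
    (hψ : Normalised R' R'' ψ) : Normalised R R'' (φ.comp ψ) :=
  fun W h x => (hψ W h _).trans (hφ W h x)

theorem Normalised.restrict {R : Rig σ pr L U} {R' : Rig σ pr L' U}
    {φ : LocHom L L' (pr ⁻¹ᵁ U)} (hφ : Normalised R R' φ) {U' : T.Opens} (hU : U' ≤ U) :
    Normalised (R.restrict hU) (R'.restrict hU) (φ.restrict (pr.preimage_mono hU)) :=
  fun W h x => hφ W _ x

/-- A morphism preserving frames can be made compatible with the rigidifications. -/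
theorem exists_normalised (hσ : σ ≫ pr = 𝟙 T) (R : Rig σ pr L U) (R' : Rig σ pr L' U)
    (φ : LocHom L L' (pr ⁻¹ᵁ U)) (hφ : φ.Frames) :
    ∃ ψ : LocHom L L' (pr ⁻¹ᵁ U), ψ.Frames ∧ Normalised R R' ψ := by
  obtain ⟨w, hw⟩ := exists_ratio hσ (R'.comap φ hφ R) R
  obtain ⟨v, hv⟩ := exists_ratio hσ R (R'.comap φ hφ R)
  have hwv : v * w = 1 := by
    choose W hpW hW e he using fun p : (pr ⁻¹ᵁ U : X.Opens) => R.exists_frame p p.2
    refine ext_functions (fun p => σ ⁻¹ᵁ W p) (fun p => preimage_section_le hσ (hW p))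
      (fun y hy => ⟨⟨σ y, mem_preimage_section hσ hy⟩, hpW _⟩) fun p => ?_
    refine ((R'.comap φ hφ R).isUnit _ (hW p) _ (he p)).mul_right_cancel ?_
    rw [map_one, one_mul, map_mul, mul_assoc, ← hw _ (hW p), ← hv _ (hW p)]
  have hu : IsUnit w := IsUnit.of_mul_eq_one v (by rw [mul_comm]; exact hwv)
  refine ⟨φ.scale (pr.app U w), hφ.scale (hu.map (pr.app U).hom), fun W h x => ?_⟩
  change R'.val W h (resO h (pr.app U w) • φ.app W h x) = _
  rw [R'.smul, hw W h x]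
  congr 1
  have hle : U ≤ σ ⁻¹ᵁ (pr ⁻¹ᵁ U) := fun y hy => mem_preimage_section hσ hy
  rw [← resO_app σ h]
  have h1 : resO hle (σ.app (pr ⁻¹ᵁ U) (pr.app U w)) = w :=
    resO_app_congr hσ (W := U) hle w
  conv_rhs => rw [← h1, resO_resO]

variable (σ pr) in
/-- Functions are determined by their values along the section. -/
def Rigid : Prop :=
  ∀ (U : T.Opens) (hU : U ≤ σ ⁻¹ᵁ (pr ⁻¹ᵁ U)) (a : Γ(X, pr ⁻¹ᵁ U)),
    σ.appLE (pr ⁻¹ᵁ U) U hU a = 1 → a = 1

/-- Morphisms compatible with the rigidifications are unique. -/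
theorem Normalised.app_eq (hσ : σ ≫ pr = 𝟙 T) (hrig : Rigid σ pr) {R : Rig σ pr L U}
    {R' : Rig σ pr L' U} {φ ψ : LocHom L L' (pr ⁻¹ᵁ U)} (hψ : ψ.Frames)
    (nφ : Normalised R R' φ) (nψ : Normalised R R' ψ) (W : X.Opens) (h : W ≤ pr ⁻¹ᵁ U)
    (x : Γ(L, W)) : φ.app W h x = ψ.app W h x := by
  choose V hpV hV e he using fun p : (pr ⁻¹ᵁ U : X.Opens) => R.exists_frame p p.2
  have hψe : ∀ p, IsFrame L' (ψ.app (V p) (hV p) (e p)) := fun p => hψ _ _ _ (he p)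
  let q : ∀ p, Γ(X, V p) := fun p => (hψe p).coeff le_rfl (φ.app (V p) (hV p) (e p))
  have key : ∀ p (W' : X.Opens) (hp : W' ≤ V p) (y : Γ(L, W')),
      φ.app W' (hp.trans (hV p)) y = resO hp (q p) • ψ.app W' (hp.trans (hV p)) y := by
    intro p W' hp y
    rw [← (he p).coeff_spec hp y, φ.smul, ψ.smul, ← φ.res _ _ (hV p) hp, ← ψ.res _ _ (hV p) hp,
      smul_comm, ← resM_smul]
    congr 2
    have := (hψe p).coeff_spec le_rfl (φ.app (V p) (hV p) (e p))
    rw [resM_self] at this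
    exact this.symm
  obtain ⟨a, ha⟩ := exists_glue_functions V hV (fun y hy => ⟨⟨y, hy⟩, hpV _⟩) q (fun p p' => by
    have hp : V p ⊓ V p' ≤ V p := inf_le_left
    have h1 := key p (V p ⊓ V p') hp (resM L hp (e p))
    have h2 := key p' (V p ⊓ V p') inf_le_right (resM L hp (e p))
    exact (hψ _ _ _ ((he p).res hp)).smul_cancel le_rfl (by
      rw [resM_self]; exact h1.symm.trans h2))
  have hle : U ≤ σ ⁻¹ᵁ (pr ⁻¹ᵁ U) := fun y hy => mem_preimage_section hσ hy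
  have ha1 : a = 1 := hrig U hle a (by
    refine ext_functions (fun p => σ ⁻¹ᵁ V p) (fun p => preimage_section_le hσ (hV p))
      (fun y hy => ⟨⟨σ y, mem_preimage_section hσ hy⟩, hpV _⟩) fun p => ?_
    change resO _ (resO hle (σ.app _ a)) = resO _ 1
    rw [resO_resO, map_one, resO_app σ (hV p), ha p]
    have h1 := nφ _ (hV p) (e p)
    rw [key p (V p) le_rfl (e p), R'.smul, nψ, resO_self] at h1
    exact (R.isUnit _ (hV p) _ (he p)).mul_right_cancel (h1.trans (one_mul _).symm))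
  refine ext_sections L' (fun p => W ⊓ V p) (fun _ => inf_le_left)
    (fun y hy => ⟨⟨y, h hy⟩, hy, hpV _⟩) fun p => ?_
  rw [φ.res, ψ.res, key p _ inf_le_right, ← ha p, ha1, map_one, map_one, one_smul]

/-- A rigidification from a trivialisation along the section. -/
def ofIso (hL : Scheme.Modules.IsInvertible L)
    (ρ : (Scheme.Modules.pullback σ).obj L ≅ SheafOfModules.unit T.ringCatSheaf) (U : T.Opens) :
    Rig σ pr L U where
  val W _ :=
    (AddMonoidHom.mk' (fun x => (ρ.hom.app (σ ⁻¹ᵁ W) (pb σ L W x) : Γ(T, σ ⁻¹ᵁ W)))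
      fun x y => by rw [map_add, map_add]; rfl)
  smul W h r x := by
    change ρ.hom.app _ (pb σ L W (r • x)) = _
    rw [pb_smul, Scheme.Modules.Hom.app_smul]
    rfl
  res W W' h h' x := by
    change resM (SheafOfModules.unit T.ringCatSheaf : T.Modules) (σ.preimage_mono h')
      (ρ.hom.app _ (pb σ L W x)) = ρ.hom.app _ (pb σ L W' (resM L h' x))
    rw [← app_resM, resM_pb]
  isUnit W h e he := isUnit_of_isFrame_unit ((he.pb σ).map ρ)
  exists_frame p hp := by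
    obtain ⟨W, hpW, e, he⟩ := Shf.exists_frame hL p
    exact ⟨W ⊓ pr ⁻¹ᵁ U, ⟨hpW, hp⟩, inf_le_right, _, he.res inf_le_left⟩

/-- The functions on an open subset of the image of an open immersion. -/
def appEquiv {Y : Scheme.{u}} (j : Y ⟶ X) [IsOpenImmersion j] {W : X.Opens} (hW : W ≤ j.opensRange) :
    Γ(X, W) ≃+* Γ(Y, j ⁻¹ᵁ W) :=
  haveI := j.isIso_app W hW
  (asIso (j.app W)).commRingCatIsoToRingEquiv

theorem appEquiv_apply {Y : Scheme.{u}} (j : Y ⟶ X) [IsOpenImmersion j] {W : X.Opens}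
    (hW : W ≤ j.opensRange) (r : Γ(X, W)) : appEquiv j hW r = j.app W r := rfl

/-- A rigidification of a module living over an open subset of the base. -/
theorem nonempty_pushforward (hσ : σ ≫ pr = 𝟙 T) {X' T' : Scheme.{u}} (F : X' ⟶ X) (ι : T' ⟶ T)
    [IsOpenImmersion F] [IsOpenImmersion ι] (σ' : T' ⟶ X') (hfac : σ' ≫ F = ι ≫ σ)
    (hU : U ≤ ι.opensRange) (hF : pr ⁻¹ᵁ U ≤ F.opensRange) {L₁ : X'.Modules}
    (hL : Scheme.Modules.IsInvertible L₁)
    (ρ : (Scheme.Modules.pullback σ').obj L₁ ≅ SheafOfModules.unit T'.ringCatSheaf) :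
    Nonempty (Rig σ pr ((Scheme.Modules.pushforward F).obj L₁) U) := by
  have heq : ∀ W : X.Opens, ι ⁻¹ᵁ (σ ⁻¹ᵁ W) = σ' ⁻¹ᵁ (F ⁻¹ᵁ W) := fun W => by
    rw [← Scheme.Hom.comp_preimage, ← Scheme.Hom.comp_preimage, hfac]
  have hι : ∀ W : X.Opens, W ≤ pr ⁻¹ᵁ U → σ ⁻¹ᵁ W ≤ ι.opensRange := fun W hW =>
    (preimage_section_le hσ hW).trans hU
  let v : ∀ W : X.Opens, Γ(L₁, F ⁻¹ᵁ W) →+ Γ(T', ι ⁻¹ᵁ (σ ⁻¹ᵁ W)) := fun W =>
    (resO (heq W).le).toAddMonoidHom.comp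
      (AddMonoidHom.mk' (fun x => (ρ.hom.app _ (pb σ' L₁ (F ⁻¹ᵁ W) x) : Γ(T', σ' ⁻¹ᵁ (F ⁻¹ᵁ W))))
        fun x y => by rw [map_add, map_add]; rfl)
  have hv : ∀ W (x : Γ(L₁, F ⁻¹ᵁ W)),
      v W x = resO (heq W).le (ρ.hom.app _ (pb σ' L₁ (F ⁻¹ᵁ W) x) : Γ(T', σ' ⁻¹ᵁ (F ⁻¹ᵁ W))) :=
    fun _ _ => rfl
  refine ⟨⟨fun W hW => (appEquiv ι (hι W hW)).symm.toAddEquiv.toAddMonoidHom.comp (v W),
    fun W hW r x => ?_, fun W W' hW h' x => ?_, fun W hW e he => ?_, fun p hp => ?_⟩⟩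
  · apply (appEquiv ι (hι W hW)).injective
    rw [map_mul]
    change (appEquiv ι (hι W hW)) ((appEquiv ι (hι W hW)).symm (v W _)) =
      _ * (appEquiv ι (hι W hW)) ((appEquiv ι (hι W hW)).symm (v W x))
    rw [RingEquiv.apply_symm_apply, RingEquiv.apply_symm_apply, appEquiv_apply]
    let x' : Γ(L₁, F ⁻¹ᵁ W) := x
    let r' : Γ(X', F ⁻¹ᵁ W) := F.app W r
    change v W (r' • x') = _
    rw [hv, hv, pb_smul, Scheme.Modules.Hom.app_smul]
    let z : Γ(T', σ' ⁻¹ᵁ (F ⁻¹ᵁ W)) := ρ.hom.app _ (pb σ' L₁ (F ⁻¹ᵁ W) x')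
    let s' : Γ(T', σ' ⁻¹ᵁ (F ⁻¹ᵁ W)) := σ'.app _ (F.app W r)
    change resO _ (s' * z) = _
    rw [map_mul]
    congr 1
    exact resO_app_congr hfac (heq W).le r
  · apply (appEquiv ι (hι W' (h'.trans hW))).injective
    change _ = (appEquiv ι _) ((appEquiv ι (hι W' (h'.trans hW))).symm (v W' _))
    rw [RingEquiv.apply_symm_apply, appEquiv_apply, ← resO_app ι (σ.preimage_mono h'),
      ← appEquiv_apply ι (hι W hW)]
    change resO _ (appEquiv ι (hι W hW) ((appEquiv ι (hι W hW)).symm (v W x))) = _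
    rw [RingEquiv.apply_symm_apply, hv, hv, resM_pushforward, ← resM_pb, app_resM, resO_resO]
    exact (resO_resO _ _ _).symm
  · refine IsUnit.map (appEquiv ι (hι W hW)).symm ?_
    have h1 := isUnit_of_isFrame_unit
      ((((isFrame_pushforward_iff F L₁ (hW.trans hF) e).mp he).pb σ').map ρ)
    exact h1.map (resO (heq W).le)
  · obtain ⟨z, rfl⟩ := hF hp
    obtain ⟨W', hzW, e, he⟩ := Shf.exists_frame hL z
    let W := F ''ᵁ W' ⊓ pr ⁻¹ᵁ U
    have hWle : F ⁻¹ᵁ W ≤ W' := fun x hx => by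
      obtain ⟨y, hy, hxy⟩ := hx.1
      rwa [← F.isOpenEmbedding.injective hxy]
    refine ⟨W, ⟨⟨z, hzW, rfl⟩, hp⟩, inf_le_right, resM L₁ hWle e, ?_⟩
    exact (isFrame_pushforward_iff F L₁ (inf_le_left.trans (F.image_le_opensRange W')) _).mpr
      (he.res hWle)

end Rig

end Fermat.Agent.Jac.Shf
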